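import Mathlib

/-!
# The field fixed by all ring endomorphisms of `ℂ` is `ℚ`

Module (6) of the integral-structure project: if `x : ℂ` is fixed by every ring
homomorphism `ℂ →+* ℂ`, then `x` is rational.  (In fact ring automorphisms suffice.)
-/

namespace Fermat.Agent.IS

open MvPolynomial

/-- An automorphism of the polynomial ring on a transcendence basis extends to `ℂ`. -/
theorem exists_ringEquiv_extending {R : Type*} [CommRing R] [IsDomain R] [Algebra R ℂ]
    [FaithfulSMul R ℂ]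
    {ι : Type*} (v : ι → ℂ) (hv : IsTranscendenceBasis R v)
    (e : MvPolynomial ι R ≃+* MvPolynomial ι R) :
    ∃ σ : ℂ ≃+* ℂ, ∀ P : MvPolynomial ι R, σ (aeval v P) = aeval v (e P) := by
  have : IsAlgClosure (Algebra.adjoin R (Set.range v)) ℂ :=
    IsAlgClosed.isAlgClosure_of_transcendence_basis v hv
  let a : MvPolynomial ι R ≃ₐ[R] (Algebra.adjoin R (Set.range v)) := hv.1.aevalEquiv
  let e' : (Algebra.adjoin R (Set.range v)) ≃+* (Algebra.adjoin R (Set.range v)) :=
    (a.symm.toRingEquiv.trans e).trans a.toRingEquiv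
  have h1 : ∀ P : MvPolynomial ι R,
      aeval v P = algebraMap (Algebra.adjoin R (Set.range v)) ℂ (a P) := by
    intro P
    exact (hv.1.algebraMap_aevalEquiv P).symm
  refine ⟨IsAlgClosure.equivOfEquiv ℂ ℂ e', fun P => ?_⟩
  rw [h1, IsAlgClosure.equivOfEquiv_algebraMap, h1]
  congr 1
  simp [e']

/-- The translation automorphism `X i₀ ↦ X i₀ + 1` of a polynomial ring. -/
noncomputable def shiftEquiv (ι : Type*) [DecidableEq ι] (i₀ : ι) :
    MvPolynomial ι ℚ ≃ₐ[ℚ] MvPolynomial ι ℚ :=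
  AlgEquiv.ofAlgHom
    (aeval fun i => X i + C (if i = i₀ then (1 : ℚ) else 0))
    (aeval fun i => X i - C (if i = i₀ then (1 : ℚ) else 0))
    (by
      apply MvPolynomial.algHom_ext
      intro i
      simp)
    (by
      apply MvPolynomial.algHom_ext
      intro i
      simp)

theorem shiftEquiv_X (ι : Type*) [DecidableEq ι] (i₀ : ι) :
    shiftEquiv ι i₀ (X i₀) = X i₀ + 1 := by
  simp [shiftEquiv]

/-- A transcendental complex number is moved by some ring automorphism of `ℂ`. -/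
theorem exists_ringEquiv_ne_of_transcendental {x : ℂ} (hx : Transcendental ℚ x) :
    ∃ σ : ℂ ≃+* ℂ, σ x ≠ x := by
  classical
  have hs : AlgebraicIndepOn ℚ id ({x} : Set ℂ) := by
    have : AlgebraicIndependent ℚ (fun i : ({x} : Set ℂ) => (i : ℂ)) := by
      rw [algebraicIndependent_singleton_iff (⟨x, rfl⟩ : ({x} : Set ℂ))]
      exact hx
    exact this
  obtain ⟨t, hxt, ht⟩ := exists_isTranscendenceBasis_superset hs
  let i₀ : t := ⟨x, hxt rfl⟩
  obtain ⟨σ, hσ⟩ := exists_ringEquiv_extending (R := ℚ) (Subtype.val : t → ℂ) ht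
    (shiftEquiv t i₀).toRingEquiv
  refine ⟨σ, ?_⟩
  have h := hσ (X i₀)
  have h2 : (shiftEquiv t i₀).toRingEquiv (X i₀) = X i₀ + 1 := shiftEquiv_X t i₀
  rw [h2] at h
  simp only [aeval_X, map_add, map_one] at h
  have hi : (i₀ : ℂ) = x := rfl
  rw [hi] at h
  rw [h]
  intro hcontra
  have : (1 : ℂ) = 0 := by linear_combination hcontra
  exact one_ne_zero this

/-- In an algebraic closure of `ℚ`, a non-rational element is moved by an automorphism. -/
theorem exists_ringEquiv_ne_of_isAlgClosure (K : Type*) [Field K] [Algebra ℚ K]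
    [IsAlgClosure ℚ K] (a : K) (ha : ∀ r : ℚ, (r : K) ≠ a) :
    ∃ τ : K ≃+* K, τ a ≠ a := by
  have : IsGalois ℚ K := IsAlgClosure.isGalois ℚ K
  have hbot : a ∉ (⊥ : IntermediateField ℚ K) := by
    intro h
    rw [IntermediateField.mem_bot] at h
    obtain ⟨r, hr⟩ := h
    exact ha r (by rw [← hr, eq_ratCast])
  rw [InfiniteGalois.mem_bot_iff_fixed] at hbot
  obtain ⟨f, hf⟩ := not_forall.mp hbot
  exact ⟨f.toRingEquiv, hf⟩

/-- An algebraic, non-rational complex number is moved by some ring automorphism of `ℂ`. -/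
theorem exists_ringEquiv_ne_of_isAlgebraic {x : ℂ} (hx : IsAlgebraic ℚ x)
    (hxr : ∀ r : ℚ, (r : ℂ) ≠ x) : ∃ σ : ℂ ≃+* ℂ, σ x ≠ x := by
  classical
  have hxK : x ∈ algebraicClosure ℚ ℂ := mem_algebraicClosure_iff.mpr hx
  have ha : ∀ r : ℚ, ((r : (algebraicClosure ℚ ℂ)) ) ≠ ⟨x, hxK⟩ := by
    intro r hr
    apply hxr r
    have := congrArg (fun y : algebraicClosure ℚ ℂ => (y : ℂ)) hr
    simpa using this
  obtain ⟨τ, hτ⟩ := @exists_ringEquiv_ne_of_isAlgClosure (algebraicClosure ℚ ℂ) _ _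
    (algebraicClosure.isAlgClosure ℚ ℂ) ⟨x, hxK⟩ ha
  obtain ⟨t, ht⟩ := exists_isTranscendenceBasis (algebraicClosure ℚ ℂ) ℂ
  obtain ⟨σ, hσ⟩ := exists_ringEquiv_extending (R := algebraicClosure ℚ ℂ)
    (Subtype.val : t → ℂ) ht (MvPolynomial.mapEquiv t τ)
  refine ⟨σ, ?_⟩
  have h := hσ (C ⟨x, hxK⟩)
  simp only [aeval_C, MvPolynomial.mapEquiv_apply, MvPolynomial.map_C] at h
  have e1 : algebraMap (algebraicClosure ℚ ℂ) ℂ ⟨x, hxK⟩ = x := rfl
  rw [e1] at h
  rw [h]
  intro hcontra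
  apply hτ
  apply Subtype.ext
  exact hcontra

/-- **Module (6).** A complex number fixed by every ring endomorphism of `ℂ` is rational. -/
theorem mem_range_ratCast_of_forall_ringHom_fixed (x : ℂ) (h : ∀ s : ℂ →+* ℂ, s x = x) :
    ∃ r : ℚ, (r : ℂ) = x := by
  by_contra hcon0
  have hcon : ∀ r : ℚ, (r : ℂ) ≠ x := fun r hr => hcon0 ⟨r, hr⟩
  by_cases hx : IsAlgebraic ℚ x
  · obtain ⟨σ, hσ⟩ := exists_ringEquiv_ne_of_isAlgebraic hx hcon
    exact hσ (h σ.toRingHom)
  · obtain ⟨σ, hσ⟩ := exists_ringEquiv_ne_of_transcendental hx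
    exact hσ (h σ.toRingHom)

end Fermat.Agent.IS
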